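/-
Program B' (S34), leaf (M6a), helper4 (task 629): the one-component points of BOTH charts, in the
abstract vocabulary of helper10's (M3) and helper42's (M6a)/(M6c), for a general coordinate.

Setting: `A₀` a discrete valuation ring of characteristic zero with uniformiser `ϖ`, `K ⊆ L`
fields over `A₀`, `x₀ ∈ K` the coordinate with its Gauss ring `O₀` (`DSetup` for `x₀`, `x₀⁻¹`),
`j₀ ∈ K` with a `j`-relation `j₀ · D(x₀) = N(x₀)`, `V₁`, `V₂` the two valuation rings of `L` above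
`O₀`, `w` an involution of `L` over `A₀` exchanging them, `H10.VGood` and `H44.ChartsGood` for
`j = α x₀`, the modular equations between `α j₀` and `w (α j₀)`, and the Kronecker congruences for
`x₀` and `j₀`.

* `oneComp_abs` : every closed point `x ∋ ϖ` of `chart A₀ (α x₀)` or of `chart A₀ (α x₀)⁻¹` which
  is not on both components is a factorial point — the two halves of `H30.VData.OneComp`.
  From `H42.pointUFD_chart_of_not_both_rel` (finite chart), `H42.pointUFD_chartInv_of_cusp_rel`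
  (cusps of the chart at infinity) and, at the other points of the chart at infinity,
  `H42.beta_mem_chart_of_rel` + `H42.chart_le_inLoc` + `H42.pointUFD_of_not_both`.
-/
import Fermat.Agent.S34.H42.CuspHaupt
import Fermat.Agent.S34.H10.M3
import Fermat.Agent.S34.H44.Charts
import Fermat.Agent.S34.H30.Leaves

set_option autoImplicit false
set_option linter.style.haveILetI false
set_option linter.unusedSectionVars false
set_option linter.unusedVariables false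

noncomputable section

namespace Fermat.Agent.S34.H4

open Fermat.Agent.S28 Fermat.Agent.S18 Fermat.Agent.S18.H19

/-- **(M6a), both charts, general coordinate.** -/
theorem oneComp_abs {A₀ : Type} [CommRing A₀] [IsDomain A₀] [IsDiscreteValuationRing A₀]
    [CharZero A₀] {K L : Type} [Field K] [Field L] [Algebra A₀ K] [Algebra A₀ L] [Algebra K L]
    [IsScalarTower A₀ K L] [FaithfulSMul A₀ K]
    (ϖ : A₀) (hϖ : Irreducible ϖ) (O₀ : ValuationSubring K) (x₀ j₀ : K)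
    (hS : DSetup A₀ O₀ x₀) (hS' : DSetup A₀ O₀ x₀⁻¹) (hj₀ : j₀ ≠ 0) (hj₀u : j₀⁻¹ ∈ O₀)
    (V₁ V₂ : ValuationSubring L)
    (hc₁ : ∀ v : K, algebraMap K L v ∈ V₁ ↔ v ∈ O₀)
    (hres₁ : ∀ g ∈ V₁, ∃ v ∈ O₀, g - algebraMap K L v ∈ V₁.nonunits)
    (w : L ≃+* L) (hwA : ∀ a : A₀, w (algebraMap A₀ L a) = algebraMap A₀ L a)
    (hwV : ∀ g : L, g ∈ V₂ ↔ w g ∈ V₁) (hww : ∀ g : L, w (w g) = g)
    (hG : H10.VGood ϖ (algebraMap K L x₀) (chart A₀ (algebraMap K L x₀))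
      (chart A₀ (algebraMap K L x₀)⁻¹) V₁ V₂)
    (hCG : H44.ChartsGood A₀ (algebraMap K L x₀))
    (N D : Polynomial A₀) (hrel : j₀ * Polynomial.aeval x₀ D = Polynomial.aeval x₀ N)
    (hN : N.Monic) (hD : D.Monic) (hdeg : D.natDegree < N.natDegree) (hcop : IsCoprime N D)
    {q : ℕ} (hq : q.Prime) {Φ : Polynomial (Polynomial ℤ)} (hΦ : IsModPoly q Φ)
    (h12 : (evalY (algebraMap K L j₀) Φ).eval (w (algebraMap K L j₀)) = 0)
    (h21 : (evalY (w (algebraMap K L j₀)) Φ).eval (algebraMap K L j₀) = 0)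
    (hkx₁ : w (algebraMap K L x₀) - algebraMap K L x₀ ^ q ∈ V₁.nonunits)
    (hkx₂ : algebraMap K L x₀ - w (algebraMap K L x₀) ^ q ∈ V₂.nonunits)
    (hkj₁ : w (algebraMap K L j₀) - algebraMap K L j₀ ^ q ∈ V₁.nonunits)
    (hkj₂ : algebraMap K L j₀ - w (algebraMap K L j₀) ^ q ∈ V₂.nonunits) :
    (∀ (x : Ideal ↥(chart A₀ (algebraMap K L x₀))) (hx : x.IsMaximal),
        algebraMap A₀ ↥(chart A₀ (algebraMap K L x₀)) ϖ ∈ x →
        ¬ H30.Both V₁ V₂ (chart A₀ (algebraMap K L x₀)) x →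
        H30.PointUFD (chart A₀ (algebraMap K L x₀)) x hx.isPrime) ∧
    (∀ (x : Ideal ↥(chart A₀ (algebraMap K L x₀)⁻¹)) (hx : x.IsMaximal),
        algebraMap A₀ ↥(chart A₀ (algebraMap K L x₀)⁻¹) ϖ ∈ x →
        ¬ H30.Both V₁ V₂ (chart A₀ (algebraMap K L x₀)⁻¹) x →
        H30.PointUFD (chart A₀ (algebraMap K L x₀)⁻¹) x hx.isPrime) := by
  haveI := hCG.noeth₁
  haveI := hCG.noeth₂
  haveI := hCG.icl₁
  haveI := hCG.icl₂
  -- the second degeneracy map `β = w ∘ α`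
  obtain ⟨hβV, hresβ⟩ := H42.beta_supply O₀ V₁ V₂ hc₁ hres₁ w hwV hww
  have hβA : ∀ a : A₀, ((w : L →+* L).comp (algebraMap K L)) (algebraMap A₀ K a)
      = algebraMap A₀ L a := fun a => H42.beta_algebraMap w hwA a
  refine ⟨fun x hx hϖx hnb => ?_, fun x hx hϖx hnb => ?_⟩
  · -- the finite chart
    exact H42.pointUFD_chart_of_not_both_rel ϖ hϖ O₀ x₀ j₀ hS hj₀ V₁ V₂ hc₁ hres₁
      ((w : L →+* L).comp (algebraMap K L)) hβA hβV hresβ hCG.frac₁ hG.le₁₁ hG.le₁₂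
      hG.unif₁ hG.unif₂ hG.sat₁ N D hrel hN hD hdeg hcop hq.ne_zero hΦ h12 h21 hkx₁ hkx₂
      x hx hϖx hnb
  · -- the chart at infinity
    haveI hxp : x.IsPrime := hx.isPrime
    by_cases hsx : (⟨(algebraMap K L x₀)⁻¹, self_mem_chart A₀ _⟩ :
        ↥(chart A₀ (algebraMap K L x₀)⁻¹)) ∈ x
    · -- a cusp
      exact H42.pointUFD_chartInv_of_cusp_rel ϖ hϖ O₀ x₀ j₀ hS hS' hj₀ hj₀u V₁ V₂ hc₁ hres₁
        ((w : L →+* L).comp (algebraMap K L)) hβA hβV hresβ hCG.frac₂ hG.le₂₁ hG.le₂₂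
        hG.unif₁ hG.unif₂ hG.sat₂ N D hrel hN hD hdeg hq hΦ h12 h21 hkj₁ hkj₂ x hx hϖx hsx
    · -- not a cusp: `α x₀` lies in the local ring, and `β x₀` is integral over `A₀[α x₀]`
      have hx₀ne : x₀ ≠ 0 := H42.dsetup_ne_zero O₀ x₀ hS
      have hα0 : algebraMap K L x₀ ≠ 0 :=
        (map_ne_zero_iff _ (algebraMap K L).injective).mpr hx₀ne
      have hβmem : ((w : L →+* L).comp (algebraMap K L)) x₀ ∈ chart A₀ (algebraMap K L x₀) :=
        H42.beta_mem_chart_of_rel ϖ hϖ x₀ j₀ hx₀ne hj₀ V₁ V₂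
          ((w : L →+* L).comp (algebraMap K L)) hβA hCG.frac₁ hG.le₁₁ hG.le₁₂ hG.unif₁ hG.unif₂
          hG.sat₁ N D hrel hN hD hdeg hcop hq.ne_zero hΦ h12 h21 hkx₁ hkx₂
      have hloc₁ : H42.InLoc (chart A₀ (algebraMap K L x₀)⁻¹) x (algebraMap K L x₀) := by
        refine ⟨1, ⟨(algebraMap K L x₀)⁻¹, self_mem_chart A₀ _⟩, hsx, ?_⟩
        show algebraMap K L x₀ * (algebraMap K L x₀)⁻¹
          = ((1 : ↥(chart A₀ (algebraMap K L x₀)⁻¹)) : L)
        rw [mul_inv_cancel₀ hα0, Subalgebra.coe_one]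
      have hloc₂ : H42.InLoc (chart A₀ (algebraMap K L x₀)⁻¹) x
          (((w : L →+* L).comp (algebraMap K L)) x₀) :=
        H42.chart_le_inLoc _ hCG.frac₂ x _ hloc₁ _ hβmem
      exact H42.pointUFD_of_not_both ϖ hϖ O₀ x₀ x₀ hS hS V₁ V₂ hc₁ hres₁
        ((w : L →+* L).comp (algebraMap K L)) hβA hβV hresβ
        (chart A₀ (algebraMap K L x₀)⁻¹) hCG.frac₂ hG.le₂₁ hG.le₂₂ hG.unif₁ hG.unif₂ hG.sat₂
        x hx hϖx hloc₁ hloc₂ hnb

end Fermat.Agent.S34.H4
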