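/-
Program B' (S34), leaf (M6a) on the concrete model, ALL `q`, helper4 (task 629): the one-component
points of the standard model `H30.stdV` are factorial points.

* `jtop_inv_mem_gaussO` : `1 / j(q^M)` lies in the Gauss ring of level `M`.
* `kronecker_rat` : the Kronecker congruences `β f ≡ (α f)^q` on `O₁` and `α f ≡ (β f)^q` on `O₂`
  for a RATIONAL function `f` of the Gauss ring.
* `evalY_jtop` : the two modular equations between `α (jtop M)` and `β (jtop M)`.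
* `oneComp_of_rel` : `(stdV …).OneComp` for every admissible base function `x₀` (`H30.IsBase`) with
  a `j`-relation `j(q^M) · D(x₀) = N(x₀)` (`N`, `D` monic integral polynomials, `deg D < deg N`,
  coprime modulo `q`).  Adapter over `H4.oneComp_abs`; every hypothesis of the abstract binder
  block is derived from `H64.TwoGauss` and `H30.IsBase`.
* `oneCompLeaf2 : H30.OneCompLeaf2`, `oneCompLeafB_std : H77.OneCompLeafB H30.StdB` : the leaf, for
  the three standard base functions (`j(q^M)`; the Hauptmoduln of level two and three).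
-/
import Fermat.Agent.S34.H4.OneCompAbs
import Fermat.Agent.S34.H30.Final
import Fermat.Agent.S34.H61.Concrete3
import Fermat.Agent.S34.H64.Desc
import Fermat.Agent.S34.H42.CuspIntegral
import Fermat.Agent.S34.H19.L6Haupt

set_option autoImplicit false
set_option linter.style.haveILetI false
set_option linter.unusedSectionVars false

open AlgebraicCurve ModularCurve

noncomputable section

namespace Fermat.Agent.S34.H4

open Fermat.Agent.S34.H27 Fermat.Agent.S34.H10 Fermat.Agent.S34.H7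
  Fermat.Agent.S18 Fermat.Agent.S18.H74 Fermat.Agent.S18.H19 Fermat.Agent.S34.H19
  Fermat.Agent.S34.H30 Fermat.Agent.S28

/-! ### Facts at the level of `F_M`, `F_{Mq}` -/

/-- `1 / j(q^M)` lies in the Gauss ring of level `M`. -/
theorem jtop_inv_mem_gaussO (M q : ℕ) [NeZero M] [Fact q.Prime] (hqM : ¬ q ∣ M)
    (A : ValuationSubring Kb) (hA : A.LiesOverPrime q) :
    (Fermat.Agent.S18.H28.jtop M)⁻¹ ∈ Fermat.Agent.S18.H66.gaussO A M hA hqM := by
  rw [← H64.gaussQ_eq_gaussO A hA M hqM, H64.mem_gaussQ_iff]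
  refine ⟨1, jqNModC A M, ?_, ?_⟩
  · have h1 : Fermat.Agent.S18.H66.redA A (jqNModC A M)
        = jqNModC (IsLocalRing.ResidueField A) M := coeffMap_jqNModC _ M
    rw [h1]
    intro h0
    exact Fermat.Agent.S18.H28.transcendental_jqNModC (IsLocalRing.ResidueField A) M
      (h0 ▸ isAlgebraic_zero)
  · have h : ((Fermat.Agent.S18.H28.jtop M : FN M) : LaurentSeries Kb)
        = Fermat.Agent.S18.H66.incl A (jqNModC A M) :=
      (Fermat.Agent.S18.H66.incA_jA A M).symm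
    have hne : (Fermat.Agent.S18.H28.jtop M : FN M) ≠ 0 := H42.jFN_ne_zero M M dvd_rfl
    rw [map_one, ← h]
    show ((((Fermat.Agent.S18.H28.jtop M)⁻¹ * Fermat.Agent.S18.H28.jtop M : FN M) : FN M) :
      LaurentSeries Kb) = 1
    rw [inv_mul_cancel₀ hne]
    rfl

/-- The Kronecker congruences for a rational function of the Gauss ring. -/
theorem kronecker_rat {M q : ℕ} [NeZero M] [Fact q.Prime] {hqM : ¬ q ∣ M}
    {A : ValuationSubring Kb} {hA : A.LiesOverPrime q} {O₁ : ValuationSubring (FN (M * q))}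
    {w : FN (M * q) ≃+* FN (M * q)} (hTG : H64.TwoGauss M q hqM A hA O₁ w) (f : FN M)
    (hf : f ∈ Set.range (ratEmb M)) (hmem : f ∈ Fermat.Agent.S18.H66.gaussO A M hA hqM) :
    heckeBetaBar Kb M q f - heckeAlphaBar Kb M q f ^ q ∈ O₁.nonunits ∧
      heckeAlphaBar Kb M q f - heckeBetaBar Kb M q f ^ q ∈ (H64.secondGauss O₁ w).nonunits := by
  obtain ⟨g, rfl⟩ := hf
  obtain ⟨s, hs⟩ := Fermat.Agent.S54.H94.exists_isFrobeniusAt_of_liesOverPrime A
    (Fact.out : q.Prime) hA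
  have h1 := hTG.kronecker s hs _ hmem
  have h2 := hTG.kronecker₂ s hs _ hmem
  rw [H61.arithmeticRingAut_ratEmb] at h1 h2
  exact ⟨h1, h2⟩

/-- The two modular equations between the pull-backs of `j(q^M)`. -/
theorem evalY_jtop (M q : ℕ) [NeZero M] [Fact q.Prime]
    {Φ : Polynomial (Polynomial ℤ)} (hΦ : IsModPoly q Φ) :
    haveI : NeZero q := ⟨(Fact.out : q.Prime).ne_zero⟩
    (evalY (heckeAlphaBar Kb M q (Fermat.Agent.S18.H28.jtop M)) Φ).eval
        (heckeBetaBar Kb M q (Fermat.Agent.S18.H28.jtop M)) = 0 ∧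
      (evalY (heckeBetaBar Kb M q (Fermat.Agent.S18.H28.jtop M)) Φ).eval
        (heckeAlphaBar Kb M q (Fermat.Agent.S18.H28.jtop M)) = 0 := by
  have hq : q.Prime := Fact.out
  haveI : NeZero q := ⟨hq.ne_zero⟩
  haveI : NeZero (M * q) := ⟨Nat.mul_ne_zero (NeZero.ne M) hq.ne_zero⟩
  have hd : M ∣ M * q := dvd_mul_right M q
  have hdp : M * q ∣ M * q := dvd_rfl
  have e1 : heckeAlphaBar Kb M q (Fermat.Agent.S18.H28.jtop M) =
      Fermat.Agent.S18.H28.jFN (M * q) M hd := Subtype.ext rfl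
  have e2 : heckeBetaBar Kb M q (Fermat.Agent.S18.H28.jtop M) =
      Fermat.Agent.S18.H28.jFN (M * q) (M * q) hdp := by
    have h1 := Fermat.Agent.S29.H64.heckeBetaBar_jF M q (Fermat.Agent.S24.topDiv M)
    have h2 : Fermat.Agent.S18.H28.jtop M = Fermat.Agent.S24.jF M (Fermat.Agent.S24.topDiv M) :=
      rfl
    rw [h2, h1]
    exact Subtype.ext rfl
  rw [e1, e2]
  exact H42.evalY_jFN (M * q) hq M hd hdp hΦ

/-- An integer prime to `q` is a unit of `A ∩ K₀`. -/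
theorem isUnit_intCast_comap {q : ℕ} [Fact q.Prime] (A : ValuationSubring Kb)
    (hA : A.LiesOverPrime q) (K₀ : IntermediateField ℚ Kb) (r : ℤ) (hr : ¬ (q : ℤ) ∣ r) :
    IsUnit ((r : ℤ) : ↥(A.comap (algebraMap K₀ Kb))) := by
  have hn : ¬ q ∣ r.natAbs := fun h => hr (Int.natCast_dvd.mpr h)
  obtain ⟨-, hn0, hnA⟩ := Fermat.Agent.S18.H60.unit_facts_gen A hA r.natAbs hn
  have hmem : (((r.natAbs : ℕ) : K₀))⁻¹ ∈ A.comap (algebraMap K₀ Kb) := by
    show algebraMap K₀ Kb (((r.natAbs : ℕ) : K₀))⁻¹ ∈ A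
    rw [map_inv₀, map_natCast]
    exact hnA
  have hu : IsUnit (((r.natAbs : ℕ) : ℕ) : ↥(A.comap (algebraMap K₀ Kb))) := by
    refine IsUnit.of_mul_eq_one (⟨_, hmem⟩ : ↥(A.comap (algebraMap K₀ Kb))) ?_
    apply Subtype.ext
    show ((r.natAbs : ℕ) : K₀) * (((r.natAbs : ℕ) : K₀))⁻¹ = 1
    exact mul_inv_cancel₀ (Nat.cast_ne_zero.mpr hn0)
  rcases Int.natAbs_eq r with h | h
  · rw [h, Int.cast_natCast]
    exact hu
  · rw [h, Int.cast_neg, Int.cast_natCast]
    exact hu.neg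

/-- A Bezout identity over `ℤ` with a constant prime to `q` gives coprimality over `A ∩ K₀`. -/
theorem isCoprime_map_of_bezout {q : ℕ} [Fact q.Prime] (A : ValuationSubring Kb)
    (hA : A.LiesOverPrime q) (K₀ : IntermediateField ℚ Kb) (N D : Polynomial ℤ)
    (hcop : ∃ (a b : Polynomial ℤ) (r : ℤ), ¬ (q : ℤ) ∣ r ∧ a * N + b * D = Polynomial.C r) :
    IsCoprime (N.map (Int.castRingHom ↥(A.comap (algebraMap K₀ Kb))))
      (D.map (Int.castRingHom ↥(A.comap (algebraMap K₀ Kb)))) := by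
  obtain ⟨a, b, r, hr, hab⟩ := hcop
  obtain ⟨u, hu⟩ := isUnit_intCast_comap A hA K₀ r hr
  refine ⟨Polynomial.C (↑u⁻¹ : ↥(A.comap (algebraMap K₀ Kb)))
      * a.map (Int.castRingHom ↥(A.comap (algebraMap K₀ Kb))),
    Polynomial.C (↑u⁻¹ : ↥(A.comap (algebraMap K₀ Kb)))
      * b.map (Int.castRingHom ↥(A.comap (algebraMap K₀ Kb))), ?_⟩
  have h1 := congrArg (Polynomial.map (Int.castRingHom ↥(A.comap (algebraMap K₀ Kb)))) hab
  rw [Polynomial.map_add, Polynomial.map_mul, Polynomial.map_mul, Polynomial.map_C] at h1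
  have h2 : (Int.castRingHom ↥(A.comap (algebraMap K₀ Kb))) r
      = (u : ↥(A.comap (algebraMap K₀ Kb))) := hu.symm
  rw [h2] at h1
  calc Polynomial.C (↑u⁻¹ : ↥(A.comap (algebraMap K₀ Kb)))
        * a.map (Int.castRingHom ↥(A.comap (algebraMap K₀ Kb)))
        * N.map (Int.castRingHom ↥(A.comap (algebraMap K₀ Kb)))
      + Polynomial.C (↑u⁻¹ : ↥(A.comap (algebraMap K₀ Kb)))
        * b.map (Int.castRingHom ↥(A.comap (algebraMap K₀ Kb)))
        * D.map (Int.castRingHom ↥(A.comap (algebraMap K₀ Kb)))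
      = Polynomial.C (↑u⁻¹ : ↥(A.comap (algebraMap K₀ Kb)))
        * (a.map (Int.castRingHom ↥(A.comap (algebraMap K₀ Kb)))
            * N.map (Int.castRingHom ↥(A.comap (algebraMap K₀ Kb)))
          + b.map (Int.castRingHom ↥(A.comap (algebraMap K₀ Kb)))
            * D.map (Int.castRingHom ↥(A.comap (algebraMap K₀ Kb)))) := by ring
    _ = Polynomial.C (↑u⁻¹ : ↥(A.comap (algebraMap K₀ Kb)))
        * Polynomial.C (u : ↥(A.comap (algebraMap K₀ Kb))) := by rw [h1]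
    _ = 1 := by rw [← Polynomial.C_mul, Units.inv_mul, Polynomial.C_1]

/-! ### Facts on the `K₀`-forms -/

section Forms

variable {M q : ℕ} [NeZero M] [hqF : Fact q.Prime] {hqM : ¬ q ∣ M} {A : ValuationSubring Kb}
  {hA : A.LiesOverPrime q} {O₁ : ValuationSubring (FN (M * q))}
  {w : FN (M * q) ≃+* FN (M * q)}

/-- The modular equation `Φ(α v, β v) = 0` on the `K₀`-form (`β = w ∘ α`). -/
theorem evalY_form₁₂ (hTG : H64.TwoGauss M q hqM A hA O₁ w) (K₀ : IntermediateField ℚ Kb)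
    (v : ↥(H61.ratForm M K₀)) {Φ : Polynomial (Polynomial ℤ)}
    (h : haveI : NeZero q := ⟨hqF.out.ne_zero⟩
      (evalY (heckeAlphaBar Kb M q (v : FN M)) Φ).eval (heckeBetaBar Kb M q (v : FN M)) = 0) :
    haveI : NeZero q := ⟨hqF.out.ne_zero⟩
    (evalY (H61.alphaForm M q K₀ v) Φ).eval (H61.wForm hTG K₀ (H61.alphaForm M q K₀ v)) = 0 := by
  haveI : NeZero q := ⟨hqF.out.ne_zero⟩
  apply (algebraMap ↥(H61.ratForm (M * q) K₀) (FN (M * q))).injective
  rw [map_zero, map_evalY_eval]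
  show (evalY (heckeAlphaBar Kb M q (v : FN M)) Φ).eval (w (heckeAlphaBar Kb M q (v : FN M))) = 0
  rw [hTG.w_alpha]
  exact h

/-- The modular equation `Φ(β v, α v) = 0` on the `K₀`-form (`β = w ∘ α`). -/
theorem evalY_form₂₁ (hTG : H64.TwoGauss M q hqM A hA O₁ w) (K₀ : IntermediateField ℚ Kb)
    (v : ↥(H61.ratForm M K₀)) {Φ : Polynomial (Polynomial ℤ)}
    (h : haveI : NeZero q := ⟨hqF.out.ne_zero⟩
      (evalY (heckeBetaBar Kb M q (v : FN M)) Φ).eval (heckeAlphaBar Kb M q (v : FN M)) = 0) :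
    haveI : NeZero q := ⟨hqF.out.ne_zero⟩
    (evalY (H61.wForm hTG K₀ (H61.alphaForm M q K₀ v)) Φ).eval (H61.alphaForm M q K₀ v) = 0 := by
  haveI : NeZero q := ⟨hqF.out.ne_zero⟩
  apply (algebraMap ↥(H61.ratForm (M * q) K₀) (FN (M * q))).injective
  rw [map_zero, map_evalY_eval]
  show (evalY (w (heckeAlphaBar Kb M q (v : FN M))) Φ).eval (heckeAlphaBar Kb M q (v : FN M)) = 0
  rw [hTG.w_alpha]
  exact h

/-- The Kronecker congruence on `V₁`, on the `K₀`-form. -/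
theorem kron_form₁ (hTG : H64.TwoGauss M q hqM A hA O₁ w) (K₀ : IntermediateField ℚ Kb)
    (v : ↥(H61.ratForm M K₀))
    (h : haveI : NeZero q := ⟨hqF.out.ne_zero⟩
      heckeBetaBar Kb M q (v : FN M) - heckeAlphaBar Kb M q (v : FN M) ^ q ∈ O₁.nonunits) :
    haveI : NeZero q := ⟨hqF.out.ne_zero⟩
    H61.wForm hTG K₀ (H61.alphaForm M q K₀ v) - H61.alphaForm M q K₀ v ^ q
      ∈ (H61.gaussOne M q O₁ K₀).nonunits := by
  haveI : NeZero q := ⟨hqF.out.ne_zero⟩
  rw [H61.gaussOne, H61.mem_nonunits_comap_iff, map_sub, map_pow]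
  show w (heckeAlphaBar Kb M q (v : FN M)) - heckeAlphaBar Kb M q (v : FN M) ^ q ∈ O₁.nonunits
  rw [hTG.w_alpha]
  exact h

/-- The Kronecker congruence on `V₂`, on the `K₀`-form. -/
theorem kron_form₂ (hTG : H64.TwoGauss M q hqM A hA O₁ w) (K₀ : IntermediateField ℚ Kb)
    (v : ↥(H61.ratForm M K₀))
    (h : haveI : NeZero q := ⟨hqF.out.ne_zero⟩
      heckeAlphaBar Kb M q (v : FN M) - heckeBetaBar Kb M q (v : FN M) ^ q
        ∈ (H64.secondGauss O₁ w).nonunits) :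
    haveI : NeZero q := ⟨hqF.out.ne_zero⟩
    H61.alphaForm M q K₀ v - H61.wForm hTG K₀ (H61.alphaForm M q K₀ v) ^ q
      ∈ (H61.gaussTwoForm M q O₁ w K₀).nonunits := by
  haveI : NeZero q := ⟨hqF.out.ne_zero⟩
  rw [H61.gaussTwoForm, H61.mem_nonunits_comap_iff, map_sub, map_pow]
  show heckeAlphaBar Kb M q (v : FN M) - w (heckeAlphaBar Kb M q (v : FN M)) ^ q
    ∈ (H64.secondGauss O₁ w).nonunits
  rw [hTG.w_alpha]
  exact h

end Forms

/-- The `j`-relation on the `K₀`-form, with coefficients in `A ∩ K₀`. -/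
theorem rel_form (M : ℕ) [NeZero M] (A : ValuationSubring Kb) (K₀ : IntermediateField ℚ Kb)
    (x₀ j₀ : FN M) (hxm : x₀ ∈ H61.ratForm M K₀) (hjm : j₀ ∈ H61.ratForm M K₀)
    (N D : Polynomial ℤ) (hrel : j₀ * Polynomial.aeval x₀ D = Polynomial.aeval x₀ N) :
    letI := algComap (A.comap (algebraMap K₀ Kb)) (H61.ratForm M K₀)
    (⟨j₀, hjm⟩ : ↥(H61.ratForm M K₀))
      * Polynomial.aeval (⟨x₀, hxm⟩ : ↥(H61.ratForm M K₀))
        (D.map (Int.castRingHom ↥(A.comap (algebraMap K₀ Kb))))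
      = Polynomial.aeval (⟨x₀, hxm⟩ : ↥(H61.ratForm M K₀))
        (N.map (Int.castRingHom ↥(A.comap (algebraMap K₀ Kb)))) := by
  letI := algComap (A.comap (algebraMap K₀ Kb)) (H61.ratForm M K₀)
  have key : ∀ P : Polynomial ℤ,
      ((Polynomial.aeval (⟨x₀, hxm⟩ : ↥(H61.ratForm M K₀))
        (P.map (Int.castRingHom ↥(A.comap (algebraMap K₀ Kb)))) : ↥(H61.ratForm M K₀)) : FN M)
        = Polynomial.aeval x₀ P := by
    intro P
    rw [Polynomial.aeval_def, Polynomial.eval₂_map, Polynomial.aeval_def]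
    have e1 : (algebraMap ↥(A.comap (algebraMap K₀ Kb)) ↥(H61.ratForm M K₀)).comp
        (Int.castRingHom ↥(A.comap (algebraMap K₀ Kb))) = Int.castRingHom ↥(H61.ratForm M K₀) :=
      RingHom.ext_int _ _
    have e2 : algebraMap ℤ (FN M) = Int.castRingHom (FN M) := RingHom.ext_int _ _
    rw [e1, e2]
    have e3 := Polynomial.hom_eval₂ P (Int.castRingHom ↥(H61.ratForm M K₀))
      (algebraMap ↥(H61.ratForm M K₀) (FN M)) (⟨x₀, hxm⟩ : ↥(H61.ratForm M K₀))
    have e4 : (algebraMap ↥(H61.ratForm M K₀) (FN M)).comp (Int.castRingHom ↥(H61.ratForm M K₀))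
        = Int.castRingHom (FN M) := RingHom.ext_int _ _
    rw [e4] at e3
    exact e3
  apply Subtype.ext
  show j₀ * ((Polynomial.aeval (⟨x₀, hxm⟩ : ↥(H61.ratForm M K₀))
      (D.map (Int.castRingHom ↥(A.comap (algebraMap K₀ Kb)))) : ↥(H61.ratForm M K₀)) : FN M) = _
  rw [key D, key N]
  exact hrel

/-! ### The leaf -/

/-- **(M6a) on the concrete model, all `q`.**  For an admissible base function `x₀` of the good
level `M` with a `j`-relation `j(q^M) · D(x₀) = N(x₀)`, every closed point of the special fibre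
of either chart of the standard model which is not on both components is a factorial point. -/
theorem oneComp_of_rel (M q : ℕ) [NeZero M] [Fact q.Prime] (hqM : ¬ q ∣ M)
    (A : ValuationSubring Kb) (hA : A.LiesOverPrime q) (hAtop : A ≠ ⊤)
    (O₁ : ValuationSubring (FN (M * q))) (w : FN (M * q) ≃+* FN (M * q))
    (hTG : H64.TwoGauss M q hqM A hA O₁ w) (x₀ : FN M) (hx₀ : IsBase M q hqM A hA x₀)
    (N D : Polynomial ℤ)
    (hrel : Fermat.Agent.S18.H28.jtop M * Polynomial.aeval x₀ D = Polynomial.aeval x₀ N)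
    (hN : N.Monic) (hD : D.Monic) (hdeg : D.natDegree < N.natDegree)
    (hcop : ∃ (a b : Polynomial ℤ) (r : ℤ), ¬ (q : ℤ) ∣ r ∧ a * N + b * D = Polynomial.C r)
    (K₀ : IntermediateField ℚ Kb) [FiniteDimensional ℚ K₀] [Normal ℚ K₀]
    (ϖ : ↥(A.comap (algebraMap K₀ Kb))) (hϖ : Irreducible ϖ)
    (j : ↥(H61.ratForm (M * q) K₀)) (hj : (j : FN (M * q)) = heckeAlphaBar Kb M q x₀)
    (σ : Kb ≃ₐ[ℚ] Kb) : (stdV M q A hAtop O₁ w K₀ ϖ j σ).OneComp := by
  have hq : q.Prime := Fact.out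
  haveI : NeZero q := ⟨hq.ne_zero⟩
  haveI hdvrA : IsDiscreteValuationRing ↥(A.comap (algebraMap K₀ Kb)) :=
    Fermat.Agent.S34.H78.isDVR_comap hAtop K₀
  obtain ⟨g, hg⟩ := hx₀.1
  have hxm : x₀ ∈ H61.ratForm M K₀ := by
    rw [← hg]
    exact H61.ratEmb_mem_ratForm M K₀ g
  obtain ⟨hS, hS'⟩ := hx₀.2 K₀ hxm
  have hjα : j = H61.alphaForm M q K₀ ⟨x₀, hxm⟩ := Subtype.ext hj
  subst hjα
  -- (F-DEG), (M3) and the two-extension package
  have hdeg' : @Module.finrank ↥(H61.ratForm M K₀) ↥(H61.ratForm (M * q) K₀) _ _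
      (H61.algAlpha M q K₀).toModule = q + 1 := (H64.finrank_ratForm M q K₀ hq hqM).2
  have hG := H61.vGood_ratForm_of_finrank hTG K₀ ϖ hϖ ⟨x₀, hxm⟩ hS hS' hdeg'
  have hdvr : IsDiscreteValuationRing ↥(H61.gaussForm M hqM A hA K₀) :=
    @H10.isDiscreteValuationRing_of_dsetup ↥(A.comap (algebraMap K₀ Kb)) _ ↥(H61.ratForm M K₀) _
      (algComap (A.comap (algebraMap K₀ Kb)) (H61.ratForm M K₀)) _ _ ϖ hϖ _ _ hS
  have hT := H61.twoExt_ratForm hTG K₀ hdvr hdeg'
  -- the charts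
  have hchart := chartLeaf M q hqM A hA x₀ hx₀ K₀ (H61.alphaForm M q K₀ ⟨x₀, hxm⟩) rfl
  have hCG : @Fermat.Agent.S34.H44.ChartsGood ↥(A.comap (algebraMap K₀ Kb)) _
      ↥(H61.ratForm (M * q) K₀) _
      (algComap (A.comap (algebraMap K₀ Kb)) (H61.ratForm (M * q) K₀))
      (H61.alphaForm M q K₀ ⟨x₀, hxm⟩) := by
    letI := algComap (A.comap (algebraMap K₀ Kb)) (H61.ratForm (M * q) K₀)
    haveI := Fermat.Agent.S34.H78.faithfulSMul_comap A K₀ (H61.ratForm (M * q) K₀)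
    exact Fermat.Agent.S34.H44.chartsGood _ hchart.1 hchart.2
  -- the base function `j₀ = j(q^M)` on the `K₀`-form
  have hjrat : Fermat.Agent.S18.H28.jtop M ∈ Set.range (ratEmb M) := ⟨jqNFull M, rfl⟩
  have hjm : Fermat.Agent.S18.H28.jtop M ∈ H61.ratForm M K₀ :=
    H61.mem_ratForm_of_mem_range M K₀ hjrat
  have hj₀ne : (⟨Fermat.Agent.S18.H28.jtop M, hjm⟩ : ↥(H61.ratForm M K₀)) ≠ 0 := fun h0 =>
    H42.jFN_ne_zero M M dvd_rfl (congrArg Subtype.val h0)
  have hj₀u : (⟨Fermat.Agent.S18.H28.jtop M, hjm⟩ : ↥(H61.ratForm M K₀))⁻¹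
      ∈ H61.gaussForm M hqM A hA K₀ := by
    show algebraMap ↥(H61.ratForm M K₀) (FN M)
      (⟨Fermat.Agent.S18.H28.jtop M, hjm⟩ : ↥(H61.ratForm M K₀))⁻¹
        ∈ Fermat.Agent.S18.H66.gaussO A M hA hqM
    rw [map_inv₀]
    exact jtop_inv_mem_gaussO M q hqM A hA
  have hjmemO : Fermat.Agent.S18.H28.jtop M ∈ Fermat.Agent.S18.H66.gaussO A M hA hqM :=
    Fermat.Agent.S18.H66.jFN_mem_gaussO A M hA hqM M dvd_rfl
  have hxmemO : x₀ ∈ Fermat.Agent.S18.H66.gaussO A M hA hqM := by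
    letI := algComap (A.comap (algebraMap K₀ Kb)) (H61.ratForm M K₀)
    exact (Fermat.Agent.S18.H72.self_mem_of_dsetup hS).1
  -- the modular equations and the Kronecker congruences
  obtain ⟨Φ, hΦ⟩ := Fermat.Agent.S28.hasModPolys q hq
  obtain ⟨hm12, hm21⟩ := evalY_jtop M q hΦ
  obtain ⟨hkx₁F, hkx₂F⟩ := kronecker_rat hTG x₀ hx₀.1 hxmemO
  obtain ⟨hkj₁F, hkj₂F⟩ := kronecker_rat hTG (Fermat.Agent.S18.H28.jtop M) hjrat hjmemO
  have hdegm : (D.map (Int.castRingHom ↥(A.comap (algebraMap K₀ Kb)))).natDegree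
      < (N.map (Int.castRingHom ↥(A.comap (algebraMap K₀ Kb)))).natDegree := by
    rw [hN.natDegree_map, hD.natDegree_map]
    exact hdeg
  exact @oneComp_abs ↥(A.comap (algebraMap K₀ Kb)) _ _ hdvrA _
    ↥(H61.ratForm M K₀) ↥(H61.ratForm (M * q) K₀) _ _
    (algComap (A.comap (algebraMap K₀ Kb)) (H61.ratForm M K₀))
    (algComap (A.comap (algebraMap K₀ Kb)) (H61.ratForm (M * q) K₀))
    (H61.algAlpha M q K₀) (H61.isScalarTower_algAlpha M q K₀ A)
    (Fermat.Agent.S34.H78.faithfulSMul_comap A K₀ (H61.ratForm M K₀))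
    ϖ hϖ (H61.gaussForm M hqM A hA K₀) ⟨x₀, hxm⟩ ⟨Fermat.Agent.S18.H28.jtop M, hjm⟩ hS hS'
    hj₀ne hj₀u (H61.gaussOne M q O₁ K₀) (H61.gaussTwoForm M q O₁ w K₀)
    (fun v => H61.alphaForm_mem_comap_iff hTG K₀ v)
    (@H64.TwoExt.res₁ _ _ _ _ (H61.algAlpha M q K₀) _ _ _ hT)
    (H61.wForm hTG K₀) (fun a => H61.wForm_algebraMap hTG K₀ a)
    (fun g => H61.mem_comap_gaussTwo_iff hTG K₀ g) (fun g => H61.wForm_wForm hTG K₀ g)
    hG hCG
    (N.map (Int.castRingHom ↥(A.comap (algebraMap K₀ Kb))))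
    (D.map (Int.castRingHom ↥(A.comap (algebraMap K₀ Kb))))
    (rel_form M A K₀ x₀ (Fermat.Agent.S18.H28.jtop M) hxm hjm N D hrel)
    (hN.map _) (hD.map _) hdegm (isCoprime_map_of_bezout A hA K₀ N D hcop)
    q hq Φ hΦ
    (evalY_form₁₂ hTG K₀ ⟨Fermat.Agent.S18.H28.jtop M, hjm⟩ hm12)
    (evalY_form₂₁ hTG K₀ ⟨Fermat.Agent.S18.H28.jtop M, hjm⟩ hm21)
    (kron_form₁ hTG K₀ ⟨x₀, hxm⟩ hkx₁F) (kron_form₂ hTG K₀ ⟨x₀, hxm⟩ hkx₂F)
    (kron_form₁ hTG K₀ ⟨Fermat.Agent.S18.H28.jtop M, hjm⟩ hkj₁F)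
    (kron_form₂ hTG K₀ ⟨Fermat.Agent.S18.H28.jtop M, hjm⟩ hkj₂F)

/-- **(M6a) on the concrete model for the base function `j(q^M)`** (the standard base function
for `q ≠ 2, 3`): the instance `N = X`, `D = 1` of `oneComp_of_rel`. -/
theorem oneComp_jtop (M q : ℕ) [NeZero M] [Fact q.Prime] (hqM : ¬ q ∣ M)
    (A : ValuationSubring Kb) (hA : A.LiesOverPrime q) (hAtop : A ≠ ⊤)
    (O₁ : ValuationSubring (FN (M * q))) (w : FN (M * q) ≃+* FN (M * q))
    (hTG : H64.TwoGauss M q hqM A hA O₁ w)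
    (hx₀ : IsBase M q hqM A hA (Fermat.Agent.S18.H28.jtop M))
    (K₀ : IntermediateField ℚ Kb) [FiniteDimensional ℚ K₀] [Normal ℚ K₀]
    (ϖ : ↥(A.comap (algebraMap K₀ Kb))) (hϖ : Irreducible ϖ)
    (j : ↥(H61.ratForm (M * q) K₀))
    (hj : (j : FN (M * q)) = heckeAlphaBar Kb M q (Fermat.Agent.S18.H28.jtop M))
    (σ : Kb ≃ₐ[ℚ] Kb) : (stdV M q A hAtop O₁ w K₀ ϖ j σ).OneComp := by
  have hq : q.Prime := Fact.out
  refine oneComp_of_rel M q hqM A hA hAtop O₁ w hTG _ hx₀ Polynomial.X 1 ?_ Polynomial.monic_X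
    Polynomial.monic_one ?_ ⟨0, 1, 1, ?_, ?_⟩ K₀ ϖ hϖ j hj σ
  · rw [map_one, mul_one, Polynomial.aeval_X]
  · rw [Polynomial.natDegree_one, Polynomial.natDegree_X]
    exact Nat.one_pos
  · intro h
    have h1 : (q : ℤ) = 1 := Int.eq_one_of_dvd_one (Int.natCast_nonneg q) h
    exact hq.one_lt.ne' (by exact_mod_cast h1)
  · rw [zero_mul, zero_add, one_mul, map_one]

/-- **Leaf (M6a), CLOSED**: `H30.OneCompLeaf2` — the one-component points of the standard model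
are factorial points, for the three standard base functions (`j(q^M)` for `q ≠ 2, 3`; the
Hauptmodul of level two for `q = 3`, `N = (X + 16)³`, `D = X`; the Hauptmodul of level three for
`q = 2`, `N = (X + 27)(X + 3)³`, `D = X`). -/
theorem oneCompLeaf2 : OneCompLeaf2 := by
  intro M q _ _ hqM A hA hAtop O₁ w hTG x₀ hx₀ hspec K₀ _ _ ϖ hϖ j hj σ
  rcases hspec with ⟨-, -, rfl⟩ | ⟨hq3, n, hn, hN, rfl⟩ | ⟨hq2, n, hn, hN, rfl⟩
  · exact oneComp_jtop M q hqM A hA hAtop O₁ w hTG hx₀ K₀ ϖ hϖ j hj σ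
  · haveI := hn
    refine oneComp_of_rel M q hqM A hA hAtop O₁ w hTG _ hx₀
      ((Polynomial.X + Polynomial.C 16) ^ 3) Polynomial.X (hauptTwo_rel_poly n M hN)
      ((Polynomial.monic_X_add_C 16).pow 3) Polynomial.monic_X ?_
      ⟨1, -(Polynomial.X ^ 2 + Polynomial.C 48 * Polynomial.X + Polynomial.C 768), 4096, ?_, ?_⟩
      K₀ ϖ hϖ j hj σ
    · rw [Polynomial.natDegree_X, Polynomial.natDegree_pow, Polynomial.natDegree_X_add_C]
      norm_num
    · rw [hq3]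
      norm_num
    · simp only [map_ofNat]
      ring
  · haveI := hn
    refine oneComp_of_rel M q hqM A hA hAtop O₁ w hTG _ hx₀
      ((Polynomial.X + Polynomial.C 27) * (Polynomial.X + Polynomial.C 3) ^ 3) Polynomial.X
      (hauptThree_rel_poly n M hN)
      ((Polynomial.monic_X_add_C 27).mul ((Polynomial.monic_X_add_C 3).pow 3)) Polynomial.monic_X
      ?_
      ⟨1, -(Polynomial.X ^ 3 + Polynomial.C 36 * Polynomial.X ^ 2 + Polynomial.C 270 * Polynomial.X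
        + Polynomial.C 756), 729, ?_, ?_⟩
      K₀ ϖ hϖ j hj σ
    · rw [Polynomial.natDegree_X,
        Polynomial.natDegree_mul (Polynomial.X_add_C_ne_zero 27)
          (pow_ne_zero 3 (Polynomial.X_add_C_ne_zero 3)),
        Polynomial.natDegree_pow, Polynomial.natDegree_X_add_C, Polynomial.natDegree_X_add_C]
      norm_num
    · rw [hq2]
      norm_num
    · simp only [map_ofNat]
      ring

/-- **Leaf (M6a), CLOSED, in the relative form of the root** (`H77.RootB`, `B := H30.StdB`). -/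
theorem oneCompLeafB_std : Fermat.Agent.S34.H77.OneCompLeafB StdB :=
  oneCompLeafB_std_of2 oneCompLeaf2

end Fermat.Agent.S34.H4
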